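/-
S14 / block B4 (density), piece EP: Euler product over the prime ideals of a Dedekind domain
for a completely multiplicative function on ideals.  (helper241)
-/
import Mathlib

set_option autoImplicit false

namespace Fermat.Agent.S14.H241

open UniqueFactorizationMonoid IsDedekindDomain Finset

noncomputable section

variable {R : Type*} [CommRing R] [IsDedekindDomain R]

/-- Nonzero ideals all of whose prime factors lie in `s`. -/
def factoredIdeals (s : Finset (HeightOneSpectrum R)) : Set (Ideal R) :=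
  {I | I ≠ ⊥ ∧ ∀ P ∈ normalizedFactors I, ∃ v ∈ s, v.asIdeal = P}

lemma mem_factoredIdeals {s : Finset (HeightOneSpectrum R)} {I : Ideal R} :
    I ∈ factoredIdeals s ↔ I ≠ ⊥ ∧ ∀ P ∈ normalizedFactors I, ∃ v ∈ s, v.asIdeal = P :=
  Iff.rfl

lemma factoredIdeals_mono {s t : Finset (HeightOneSpectrum R)} (h : s ⊆ t) :
    factoredIdeals s ⊆ factoredIdeals t := fun _ hI ↦
  ⟨hI.1, fun P hP ↦ let ⟨v, hv, e⟩ := hI.2 P hP; ⟨v, h hv, e⟩⟩

lemma factoredIdeals_empty :
    factoredIdeals (∅ : Finset (HeightOneSpectrum R)) = {(⊤ : Ideal R)} := by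
  ext I
  simp only [mem_factoredIdeals, Finset.notMem_empty, false_and, exists_false, imp_false,
    Set.mem_singleton_iff]
  constructor
  · rintro ⟨h0, h⟩
    have hz : normalizedFactors I = 0 := Multiset.eq_zero_of_forall_notMem h
    have := Ideal.prod_normalizedFactors_eq_self h0
    rw [hz, Multiset.prod_zero] at this
    rw [← this, Ideal.one_eq_top]
  · rintro rfl
    refine ⟨top_ne_bot, fun P hP ↦ ?_⟩
    rw [← Ideal.one_eq_top, normalizedFactors_one] at hP
    simp at hP

lemma normalizedFactors_asIdeal (v : HeightOneSpectrum R) :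
    normalizedFactors v.asIdeal = {v.asIdeal} := by
  rw [normalizedFactors_irreducible v.irreducible, normalize_eq]

lemma normalizedFactors_pow_mul (v : HeightOneSpectrum R) (e : ℕ) {J : Ideal R} (hJ : J ≠ ⊥) :
    normalizedFactors (v.asIdeal ^ e * J) =
      Multiset.replicate e v.asIdeal + normalizedFactors J := by
  rw [normalizedFactors_mul (pow_ne_zero e v.ne_bot) hJ, normalizedFactors_pow,
    normalizedFactors_asIdeal, Multiset.nsmul_singleton]

lemma notMem_normalizedFactors_of_mem_factoredIdeals {s : Finset (HeightOneSpectrum R)}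
    {v : HeightOneSpectrum R} (hv : v ∉ s) {J : Ideal R} (hJ : J ∈ factoredIdeals s) :
    v.asIdeal ∉ normalizedFactors J := by
  intro h
  obtain ⟨w, hw, e⟩ := hJ.2 _ h
  exact hv (by rwa [← HeightOneSpectrum.ext e])

/-- The multiplication map `(e, J) ↦ v ^ e * J`. -/
def powMulMap (s : Finset (HeightOneSpectrum R)) (v : HeightOneSpectrum R) [DecidableEq (HeightOneSpectrum R)] :
    ℕ × factoredIdeals s → factoredIdeals (insert v s) := fun x ↦
  ⟨v.asIdeal ^ x.1 * x.2.1, by
    have hJ := x.2.2
    refine ⟨mul_ne_zero (pow_ne_zero _ v.ne_bot) hJ.1, fun P hP ↦ ?_⟩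
    rw [normalizedFactors_pow_mul v _ hJ.1, Multiset.mem_add] at hP
    rcases hP with hP | hP
    · exact ⟨v, Finset.mem_insert_self _ _, (Multiset.eq_of_mem_replicate hP).symm⟩
    · obtain ⟨w, hw, e⟩ := hJ.2 P hP
      exact ⟨w, Finset.mem_insert_of_mem hw, e⟩⟩

variable [DecidableEq (HeightOneSpectrum R)]

lemma powMulMap_coe (s : Finset (HeightOneSpectrum R)) (v : HeightOneSpectrum R)
    (x : ℕ × factoredIdeals s) :
    ((powMulMap s v x : factoredIdeals (insert v s)) : Ideal R) = v.asIdeal ^ x.1 * x.2.1 := rfl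

lemma powMulMap_injective {s : Finset (HeightOneSpectrum R)} {v : HeightOneSpectrum R}
    (hv : v ∉ s) : Function.Injective (powMulMap s v) := by
  classical
  rintro ⟨e, J, hJ⟩ ⟨e', J', hJ'⟩ h
  have h' : v.asIdeal ^ e * J = v.asIdeal ^ e' * J' := congrArg Subtype.val h
  have hc := congrArg (Multiset.count v.asIdeal ∘ normalizedFactors) h'
  simp only [Function.comp_apply, normalizedFactors_pow_mul v _ hJ.1,
    normalizedFactors_pow_mul v _ hJ'.1, Multiset.count_add, Multiset.count_replicate_self,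
    Multiset.count_eq_zero_of_notMem (notMem_normalizedFactors_of_mem_factoredIdeals hv hJ),
    Multiset.count_eq_zero_of_notMem (notMem_normalizedFactors_of_mem_factoredIdeals hv hJ'),
    add_zero] at hc
  subst hc
  have := mul_left_cancel₀ (pow_ne_zero e v.ne_bot) h'
  subst this
  rfl

lemma powMulMap_surjective {s : Finset (HeightOneSpectrum R)} {v : HeightOneSpectrum R}
    (hv : v ∉ s) : Function.Surjective (powMulMap s v) := by
  classical
  rintro ⟨I, hI0, hI⟩
  set m := normalizedFactors I with hm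
  have hprime : ∀ P ∈ m.filter (· ≠ v.asIdeal), Prime P := fun P hP ↦
    prime_of_normalized_factor P (Multiset.mem_of_mem_filter hP)
  have hJ0 : (m.filter (· ≠ v.asIdeal)).prod ≠ ⊥ := by
    rw [← Ideal.zero_eq_bot]
    exact Multiset.prod_ne_zero fun h0 ↦ (hprime 0 h0).ne_zero rfl
  have hJ : (m.filter (· ≠ v.asIdeal)).prod ∈ factoredIdeals s := by
    refine ⟨hJ0, fun P hP ↦ ?_⟩
    rw [normalizedFactors_prod_of_prime hprime, Multiset.mem_filter] at hP
    obtain ⟨w, hw, e⟩ := hI P hP.1
    rcases Finset.mem_insert.mp hw with rfl | hws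
    · exact absurd e.symm hP.2
    · exact ⟨w, hws, e⟩
  refine ⟨⟨m.count v.asIdeal, ⟨_, hJ⟩⟩, Subtype.ext ?_⟩
  rw [powMulMap_coe]
  simp only
  rw [← Multiset.prod_replicate, ← Multiset.prod_add, ← Multiset.filter_eq',
    Multiset.filter_add_not, hm, Ideal.prod_normalizedFactors_eq_self hI0]

variable {F : Type*} [NormedField F] [CompleteSpace F]

/-- Finite Euler products: the sum of `f` over `s`-factored ideals is the product over `v ∈ s`
of the geometric series. -/
theorem summable_and_hasSum_factoredIdeals (f : Ideal R →*₀ F)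
    (hlt : ∀ v : HeightOneSpectrum R, ‖f v.asIdeal‖ < 1) (s : Finset (HeightOneSpectrum R)) :
    Summable (fun I : factoredIdeals s ↦ ‖f I‖) ∧
      HasSum (fun I : factoredIdeals s ↦ f I) (∏ v ∈ s, (1 - f v.asIdeal)⁻¹) := by
  induction s using Finset.induction with
  | empty =>
    rw [factoredIdeals_empty]
    simp only [Finset.prod_empty]
    have h1 : f (⊤ : Ideal R) = 1 := by rw [← Ideal.one_eq_top, map_one]
    refine ⟨(hasSum_singleton (⊤ : Ideal R) (fun I ↦ ‖f I‖)).summable, ?_⟩
    have := hasSum_singleton (⊤ : Ideal R) (⇑f)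
    rw [h1] at this
    exact this
  | insert v s hv ih =>
    have hinj := powMulMap_injective hv
    have hsurj := powMulMap_surjective hv
    have hrange : ∀ x ∉ Set.range (powMulMap s v), (fun I : factoredIdeals (insert v s) ↦ ‖f I‖) x = 0 :=
      fun x hx ↦ absurd (hsurj x) hx
    have hrange' : ∀ x ∉ Set.range (powMulMap s v), (fun I : factoredIdeals (insert v s) ↦ f I) x = 0 :=
      fun x hx ↦ absurd (hsurj x) hx
    have hgeo : Summable fun n : ℕ ↦ ‖f v.asIdeal ^ n‖ := by
      simp_rw [norm_pow]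
      exact summable_geometric_of_lt_one (norm_nonneg _) (hlt v)
    have hcomp : ∀ x : ℕ × factoredIdeals s,
        f (powMulMap s v x : Ideal R) = f v.asIdeal ^ x.1 * f x.2 := fun x ↦ by
      rw [powMulMap_coe, map_mul, map_pow]
    constructor
    · rw [← hinj.summable_iff hrange]
      simp only [Function.comp_def, hcomp]
      refine Summable.of_nonneg_of_le (fun _ ↦ norm_nonneg _) (fun _ ↦ norm_mul_le ..) ?_
      exact Summable.mul_of_nonneg (f := fun n : ℕ ↦ ‖f v.asIdeal ^ n‖)
        (g := fun I : factoredIdeals s ↦ ‖f I‖) hgeo ih.1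
        (fun n ↦ norm_nonneg (f v.asIdeal ^ n)) (fun I ↦ norm_nonneg (f I))
    · rw [Finset.prod_insert hv, ← hinj.hasSum_iff hrange']
      simp only [Function.comp_def, hcomp]
      have : T3Space F := inferInstance
      have hg : HasSum (fun n : ℕ ↦ f v.asIdeal ^ n) (1 - f v.asIdeal)⁻¹ :=
        hasSum_geometric_of_norm_lt_one (hlt v)
      have hs : Summable fun x : ℕ × factoredIdeals s ↦ f v.asIdeal ^ x.1 * f x.2 :=
        summable_mul_of_summable_norm (f := fun n : ℕ ↦ f v.asIdeal ^ n)
          (g := fun I : factoredIdeals s ↦ f I) hgeo ih.1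
      exact HasSum.mul (f := fun n : ℕ ↦ f v.asIdeal ^ n)
          (g := fun I : factoredIdeals s ↦ f I) hg ih.2 hs

omit [DecidableEq (HeightOneSpectrum R)] [CompleteSpace F] in
/-- Summability of the norms forces `‖f v‖ < 1` at every prime. -/
lemma norm_lt_one_of_summable (f : Ideal R →*₀ F) (hsum : Summable fun I : Ideal R ↦ ‖f I‖)
    (v : HeightOneSpectrum R) : ‖f v.asIdeal‖ < 1 := by
  have hinj : Function.Injective fun n : ℕ ↦ v.asIdeal ^ n := by
    intro a b hab
    have := congrArg normalizedFactors hab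
    simp only [normalizedFactors_pow, normalizedFactors_asIdeal, Multiset.nsmul_singleton] at this
    simpa using congrArg Multiset.card this
  have := hsum.comp_injective hinj
  simp only [Function.comp_def, map_pow, norm_pow] at this
  exact summable_geometric_iff_norm_lt_one.mp (by simpa using this) |> fun h ↦ by simpa using h


omit [DecidableEq (HeightOneSpectrum R)] in
/-- Summing over `s`-factored ideals for `s` large gets arbitrarily close to the full sum. -/
lemma norm_tsum_sub_tsum_factoredIdeals_lt (f : Ideal R →*₀ F) (hsum : Summable fun I : Ideal R ↦ f I)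
    {ε : ℝ} (hε : 0 < ε) :
    ∃ s₀ : Finset (HeightOneSpectrum R), ∀ s : Finset (HeightOneSpectrum R), s₀ ⊆ s →
      ‖(∑' I : Ideal R, f I) - ∑' I : factoredIdeals s, f I‖ < ε := by
  classical
  obtain ⟨T, hT⟩ := hsum.tsum_vanishing (Metric.ball_mem_nhds 0 hε)
  simp_rw [mem_ball_zero_iff] at hT
  refine ⟨T.biUnion fun I ↦ if h : I = ⊥ then ∅ else (Ideal.finite_factors h).toFinset,
    fun s hs ↦ ?_⟩
  have hdisj : Disjoint ((factoredIdeals s)ᶜ \ {⊥}) (T : Set (Ideal R)) := by
    rw [Set.disjoint_left]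
    rintro I ⟨hIs, hI0⟩ hIT
    apply hIs
    have hI0' : I ≠ ⊥ := hI0
    refine ⟨hI0', fun P hP ↦ ?_⟩
    have hPp : Prime P := prime_of_normalized_factor P hP
    refine ⟨⟨P, Ideal.isPrime_of_prime hPp, hPp.ne_zero⟩, hs ?_, rfl⟩
    rw [Finset.mem_biUnion]
    refine ⟨I, hIT, ?_⟩
    rw [dif_neg hI0', Set.Finite.mem_toFinset]
    exact dvd_of_mem_normalizedFactors hP
  have := hT _ hdisj
  rwa [← hsum.tsum_subtype_add_tsum_subtype_compl (factoredIdeals s), add_sub_cancel_left,
    tsum_eq_tsum_sdiff_singleton (factoredIdeals s)ᶜ (show f ⊥ = 0 from map_zero f)]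

omit [DecidableEq (HeightOneSpectrum R)] in
/-- **Euler product over the prime ideals of a Dedekind domain** for a completely
multiplicative function on ideals whose norm is summable. -/
theorem eulerProduct_ideal_hasProd (f : Ideal R →*₀ F)
    (hsum : Summable fun I : Ideal R ↦ ‖f I‖) :
    HasProd (fun v : HeightOneSpectrum R ↦ (1 - f v.asIdeal)⁻¹) (∑' I : Ideal R, f I) := by
  classical
  have hlt := norm_lt_one_of_summable f hsum
  rw [HasProd, SummationFilter.unconditional, Metric.tendsto_atTop]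
  intro ε hε
  obtain ⟨s₀, hs₀⟩ := norm_tsum_sub_tsum_factoredIdeals_lt f hsum.of_norm hε
  refine ⟨s₀, fun s hs ↦ ?_⟩
  rw [dist_eq_norm, ← (summable_and_hasSum_factoredIdeals f hlt s).2.tsum_eq, norm_sub_rev]
  exact hs₀ s hs

omit [DecidableEq (HeightOneSpectrum R)] in
theorem eulerProduct_ideal_tprod (f : Ideal R →*₀ F)
    (hsum : Summable fun I : Ideal R ↦ ‖f I‖) :
    ∏' v : HeightOneSpectrum R, (1 - f v.asIdeal)⁻¹ = ∑' I : Ideal R, f I :=
  (eulerProduct_ideal_hasProd f hsum).tprod_eq

omit [DecidableEq (HeightOneSpectrum R)] in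
/-- Finite Euler product as a sum over factored ideals (value form). -/
theorem prod_eq_tsum_factoredIdeals (f : Ideal R →*₀ F)
    (hlt : ∀ v : HeightOneSpectrum R, ‖f v.asIdeal‖ < 1) (s : Finset (HeightOneSpectrum R)) :
    ∏ v ∈ s, (1 - f v.asIdeal)⁻¹ = ∑' I : factoredIdeals s, f I := by
  classical
  exact (summable_and_hasSum_factoredIdeals f hlt s).2.tsum_eq.symm

end

end Fermat.Agent.S14.H241
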