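/-
S14 / block B4 (density): basic facts on `∑ N(I)^(-s)` over the ideals of a number field,
extracted from Mathlib's Dedekind zeta function.  (helper241)
-/
import Mathlib

set_option autoImplicit false

namespace Fermat.Agent.S14.H241

open NumberField Ideal Filter Topology Finset

noncomputable section

variable (K : Type*) [Field K] [NumberField K]

/-- `N(I)^(-s)` as a real number. -/
def nrm (s : ℝ) (I : Ideal (𝓞 K)) : ℝ := ((absNorm I : ℕ) : ℝ) ^ (-s)

variable {K}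

lemma nrm_nonneg (s : ℝ) (I : Ideal (𝓞 K)) : 0 ≤ nrm K s I :=
  Real.rpow_nonneg (Nat.cast_nonneg _) _

lemma nrm_bot {s : ℝ} (hs : s ≠ 0) : nrm K s ⊥ = 0 := by
  simp [nrm, Real.zero_rpow (neg_ne_zero.mpr hs)]

lemma nrm_top (s : ℝ) : nrm K s ⊤ = 1 := by
  simp [nrm]

lemma nrm_mul (s : ℝ) (I J : Ideal (𝓞 K)) : nrm K s (I * J) = nrm K s I * nrm K s J := by
  simp only [nrm, map_mul, Nat.cast_mul]
  exact Real.mul_rpow (Nat.cast_nonneg _) (Nat.cast_nonneg _)

lemma nrm_pos {s : ℝ} {I : Ideal (𝓞 K)} (hI : I ≠ ⊥) : 0 < nrm K s I := by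
  have : 0 < absNorm I := Nat.pos_of_ne_zero fun h ↦ hI (absNorm_eq_zero_iff.mp h)
  exact Real.rpow_pos_of_pos (by exact_mod_cast this) _

lemma one_le_absNorm {I : Ideal (𝓞 K)} (hI : I ≠ ⊥) : 1 ≤ absNorm I :=
  Nat.pos_of_ne_zero fun h ↦ hI (absNorm_eq_zero_iff.mp h)

/-- `N(I)^(-s)` is antitone in `s` (for every ideal, including `⊥` when exponents are nonzero). -/
lemma nrm_anti {s t : ℝ} (hs : 0 < s) (hst : s ≤ t) (I : Ideal (𝓞 K)) :
    nrm K t I ≤ nrm K s I := by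
  by_cases hI : I = ⊥
  · subst hI
    rw [nrm_bot hs.ne', nrm_bot (hs.trans_le hst).ne']
  · have h1 : (1 : ℝ) ≤ (absNorm I : ℕ) := by exact_mod_cast one_le_absNorm hI
    exact Real.rpow_le_rpow_of_exponent_le h1 (neg_le_neg hst)

lemma nrm_le_one {s : ℝ} (hs : 0 < s) (I : Ideal (𝓞 K)) : nrm K s I ≤ 1 := by
  by_cases hI : I = ⊥
  · subst hI
    rw [nrm_bot hs.ne']
    exact zero_le_one
  · have h1 : (1 : ℝ) ≤ (absNorm I : ℕ) := by exact_mod_cast one_le_absNorm hI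
    exact Real.rpow_le_one_of_one_le_of_nonpos h1 (by linarith)

variable (K)

/-- The Cesàro-type limit used by Mathlib for the residue of the Dedekind zeta function. -/
lemma tendsto_sum_card_absNorm_div :
    Tendsto (fun n : ℕ ↦ (∑ k ∈ Icc 1 n, (Nat.card {I : Ideal (𝓞 K) // absNorm I = k} : ℝ)) / n)
      atTop (𝓝 (dedekindZeta_residue K)) := by
  refine ((Ideal.tendsto_norm_le_div_atTop₀ K).comp tendsto_natCast_atTop_atTop).congr fun n ↦ ?_
  simp only [Function.comp_apply, Nat.cast_le, ← Nat.cast_sum]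
  congr
  rw [← add_left_inj 1, ← card_norm_le_eq_card_norm_le_add_one,
    show Finset.Icc 1 n = Finset.Ioc 0 n from Finset.Icc_succ_left_eq_Ioc _ _,
    show 1 = Nat.card {I : Ideal (𝓞 K) // absNorm I = 0} by simp [Ideal.absNorm_eq_zero_iff],
    Finset.sum_Ioc_add_eq_sum_Icc (n.zero_le),
    ← Finset.card_preimage_eq_sum_card_image_eq (fun k _ ↦ finite_setOfPred_absNorm_eq k)]
  simp [Set.coe_eq_subtype]

lemma lseriesSummable_card_absNorm {s : ℝ} (hs : 1 < s) :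
    LSeriesSummable (fun n ↦ ((Nat.card {I : Ideal (𝓞 K) // absNorm I = n} : ℝ) : ℂ)) s := by
  refine LSeriesSummable_of_sum_norm_bigO_and_nonneg ?_ (fun _ ↦ Nat.cast_nonneg _) zero_le_one
    (by simpa using hs)
  exact Asymptotics.isBigO_atTop_natCast_rpow_of_tendsto_div_rpow (a := dedekindZeta_residue K)
    (by simpa using tendsto_sum_card_absNorm_div K)


lemma tsum_fiber_nrm (s : ℝ) (n : ℕ) :
    ∑' I : {I : Ideal (𝓞 K) // absNorm I = n}, nrm K s I =
      (Nat.card {I : Ideal (𝓞 K) // absNorm I = n} : ℝ) * (n : ℝ) ^ (-s) := by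
  have : Finite {I : Ideal (𝓞 K) // absNorm I = n} := finite_setOfPred_absNorm_eq n
  have := Fintype.ofFinite {I : Ideal (𝓞 K) // absNorm I = n}
  rw [tsum_fintype, Nat.card_eq_fintype_card]
  have : ∀ I : {I : Ideal (𝓞 K) // absNorm I = n}, nrm K s I = (n : ℝ) ^ (-s) := fun I ↦ by
    simp [nrm, I.2]
  simp [this]

lemma norm_term_card (s : ℝ) (hs : s ≠ 0) (n : ℕ) :
    ‖LSeries.term (fun n ↦ ((Nat.card {I : Ideal (𝓞 K) // absNorm I = n} : ℝ) : ℂ)) s n‖ =
      (Nat.card {I : Ideal (𝓞 K) // absNorm I = n} : ℝ) * (n : ℝ) ^ (-s) := by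
  rw [LSeries.norm_term_eq]
  split_ifs with h
  · subst h
    simp [Real.zero_rpow (neg_ne_zero.mpr hs)]
  · simp only [Complex.ofReal_re, Complex.norm_real, Real.norm_natCast]
    rw [Real.rpow_neg (Nat.cast_nonneg _), div_eq_mul_inv]

/-- The sigma-type form of summability. -/
lemma summable_sigma_nrm {s : ℝ} (hs : 1 < s) :
    Summable (fun x : (Σ n : ℕ, {I : Ideal (𝓞 K) // absNorm I = n}) ↦ nrm K s x.2.1) := by
  rw [summable_sigma_of_nonneg (fun _ ↦ nrm_nonneg _ _)]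
  refine ⟨fun n ↦ ?_, ?_⟩
  · have : Finite {I : Ideal (𝓞 K) // absNorm I = n} := finite_setOfPred_absNorm_eq n
    exact Summable.of_finite
  · have h := (lseriesSummable_card_absNorm K hs).norm
    refine h.congr fun n ↦ ?_
    rw [norm_term_card K s (by linarith) n]
    exact (tsum_fiber_nrm K s n).symm

/-- `∑_I N(I)^(-s)` converges for `s > 1`. -/
theorem summable_nrm {s : ℝ} (hs : 1 < s) : Summable (nrm K s) :=
  (Equiv.sigmaFiberEquiv (fun I : Ideal (𝓞 K) ↦ absNorm I)).summable_iff.mp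
    (summable_sigma_nrm K hs)

/-- The value of `∑_I N(I)^(-s)` is the Dedekind zeta function. -/
theorem tsum_nrm_eq {s : ℝ} (hs : 1 < s) :
    ((∑' I : Ideal (𝓞 K), nrm K s I : ℝ) : ℂ) = dedekindZeta K s := by
  have h1 : ∑' I : Ideal (𝓞 K), nrm K s I =
      ∑' x : (Σ n : ℕ, {I : Ideal (𝓞 K) // absNorm I = n}), nrm K s x.2.1 :=
    ((Equiv.sigmaFiberEquiv (fun I : Ideal (𝓞 K) ↦ absNorm I)).tsum_eq (nrm K s)).symm
  have h2 : ∑' x : (Σ n : ℕ, {I : Ideal (𝓞 K) // absNorm I = n}), nrm K s x.2.1 =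
      ∑' n : ℕ, ∑' I : {I : Ideal (𝓞 K) // absNorm I = n}, nrm K s I :=
    (summable_sigma_nrm K hs).tsum_sigma' (fun n ↦ by
      have : Finite {I : Ideal (𝓞 K) // absNorm I = n} := finite_setOfPred_absNorm_eq n
      exact Summable.of_finite)
  rw [h1, h2, dedekindZeta, LSeries, Complex.ofReal_tsum]
  refine tsum_congr fun n ↦ ?_
  rw [tsum_fiber_nrm K s n]
  by_cases h : n = 0
  · subst h
    simp [Real.zero_rpow (neg_ne_zero.mpr (by linarith : s ≠ 0))]
  · rw [LSeries.term_of_ne_zero h, Real.rpow_neg (Nat.cast_nonneg _), div_eq_mul_inv]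
    push_cast
    rw [Complex.ofReal_cpow (Nat.cast_nonneg _)]
    simp


/-- The real Dedekind zeta function as a sum over ideals. -/
def zetaR (s : ℝ) : ℝ := ∑' I : Ideal (𝓞 K), nrm K s I

lemma zetaR_anti {s t : ℝ} (hs : 1 < s) (hst : s ≤ t) : zetaR K t ≤ zetaR K s :=
  (summable_nrm K (hs.trans_le hst)).tsum_le_tsum (fun I ↦ nrm_anti (by linarith) hst I)
    (summable_nrm K hs)

lemma one_le_zetaR {s : ℝ} (hs : 1 < s) : 1 ≤ zetaR K s := by
  have := (summable_nrm K hs).le_tsum (⊤ : Ideal (𝓞 K)) (fun J _ ↦ nrm_nonneg s J)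
  rwa [nrm_top] at this

lemma tendsto_sub_one_mul_zetaR :
    Tendsto (fun s : ℝ ↦ (s - 1) * zetaR K s) (𝓝[>] 1) (𝓝 (dedekindZeta_residue K)) := by
  have h := (Complex.continuous_re.tendsto _).comp (tendsto_sub_one_mul_dedekindZeta_nhdsGT K)
  simp only [Complex.ofReal_re] at h
  refine h.congr' ?_
  filter_upwards [self_mem_nhdsWithin] with s hs
  have hs' : (1 : ℝ) < s := hs
  simp only [Function.comp_apply]
  rw [← tsum_nrm_eq K hs', ← Complex.ofReal_one, ← Complex.ofReal_sub, ← Complex.ofReal_mul,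
    Complex.ofReal_re]
  rfl

/-- `(s - 1) ζ_K(s)` is bounded above and below by positive constants on `(1, 2]`. -/
theorem exists_zetaR_bounds :
    ∃ c C : ℝ, 0 < c ∧ 0 < C ∧ ∀ s : ℝ, 1 < s → s ≤ 2 →
      c ≤ (s - 1) * zetaR K s ∧ (s - 1) * zetaR K s ≤ C := by
  have hres := dedekindZeta_residue_pos K
  set ρ := dedekindZeta_residue K with hρ
  have hlim := tendsto_sub_one_mul_zetaR K
  have h1 : ∀ᶠ s in 𝓝[>] (1 : ℝ), ρ / 2 < (s - 1) * zetaR K s :=
    hlim.eventually (lt_mem_nhds (by linarith))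
  have h2 : ∀ᶠ s in 𝓝[>] (1 : ℝ), (s - 1) * zetaR K s < 2 * ρ :=
    hlim.eventually (gt_mem_nhds (by linarith))
  obtain ⟨u, hu, hu'⟩ := mem_nhdsGT_iff_exists_Ioo_subset.mp (h1.and h2)
  have hu1 : (1 : ℝ) < u := hu
  set s₀ := min ((1 + u) / 2) 2 with hs₀
  have hs₀1 : 1 < s₀ := lt_min (by linarith) (by norm_num)
  have hs₀u : s₀ < u := (min_le_left _ _).trans_lt (by linarith)
  have hs₀2 : s₀ ≤ 2 := min_le_right _ _
  refine ⟨min (ρ / 2) (s₀ - 1), max (2 * ρ) (zetaR K s₀), lt_min (by linarith) (by linarith),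
    lt_max_of_lt_left (by linarith), fun s hs hs2 ↦ ?_⟩
  by_cases hsu : s < s₀
  · have := hu' (show s ∈ Set.Ioo 1 u from ⟨hs, hsu.trans hs₀u⟩)
    exact ⟨(min_le_left _ _).trans this.1.le, this.2.le.trans (le_max_left _ _)⟩
  · rw [not_lt] at hsu
    have hz1 := one_le_zetaR K hs
    have hz2 := zetaR_anti K hs₀1 hsu
    constructor
    · calc min (ρ / 2) (s₀ - 1) ≤ s₀ - 1 := min_le_right _ _
        _ ≤ (s - 1) * 1 := by linarith
        _ ≤ (s - 1) * zetaR K s := mul_le_mul_of_nonneg_left hz1 (by linarith)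
    · calc (s - 1) * zetaR K s ≤ 1 * zetaR K s₀ := by
            apply mul_le_mul (by linarith) hz2 (by linarith) (by norm_num)
        _ ≤ max (2 * ρ) (zetaR K s₀) := by rw [one_mul]; exact le_max_right _ _

end

end Fermat.Agent.S14.H241
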