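/-
S14 / block B4 (density): sums of `N(v)^(-s)` over sets of prime ideals of a number field,
compared with `log ζ_K(s)`.  (helper241)
-/
import Fermat.Agent.S14.H241.EulerIdeal
import Fermat.Agent.S14.H241.ZetaBasic

set_option autoImplicit false

namespace Fermat.Agent.S14.H241

open NumberField Ideal Filter Topology Finset IsDedekindDomain

noncomputable section

variable (K : Type*) [Field K] [NumberField K]

/-- `I ↦ N(I)^(-s)` as a monoid-with-zero homomorphism (`s ≠ 0`). -/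
def nrmHom (s : ℝ) (hs : s ≠ 0) : Ideal (𝓞 K) →*₀ ℝ where
  toFun := nrm K s
  map_zero' := nrm_bot hs
  map_one' := by rw [Ideal.one_eq_top]; exact nrm_top s
  map_mul' := nrm_mul s

@[simp] lemma nrmHom_apply (s : ℝ) (hs : s ≠ 0) (I : Ideal (𝓞 K)) :
    nrmHom K s hs I = nrm K s I := rfl

variable {K}

/-- The norm of a prime ideal is at least `2`. -/
lemma two_le_absNorm (v : HeightOneSpectrum (𝓞 K)) : 2 ≤ absNorm v.asIdeal := by
  have h0 : absNorm v.asIdeal ≠ 0 := fun h ↦ v.ne_bot (absNorm_eq_zero_iff.mp h)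
  have h1 : absNorm v.asIdeal ≠ 1 := fun h ↦ v.isPrime.ne_top (absNorm_eq_one_iff.mp h)
  omega

lemma nrm_prime_le_half {s : ℝ} (hs : 1 ≤ s) (v : HeightOneSpectrum (𝓞 K)) :
    nrm K s v.asIdeal ≤ 1 / 2 := by
  have h2 : (2 : ℝ) ≤ (absNorm v.asIdeal : ℕ) := by exact_mod_cast two_le_absNorm v
  calc nrm K s v.asIdeal ≤ nrm K 1 v.asIdeal := nrm_anti one_pos hs _
    _ = ((absNorm v.asIdeal : ℕ) : ℝ)⁻¹ := by rw [nrm, Real.rpow_neg_one]
    _ ≤ 1 / 2 := by
        rw [one_div]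
        exact inv_anti₀ (by norm_num) h2

lemma nrm_prime_lt_one {s : ℝ} (hs : 1 ≤ s) (v : HeightOneSpectrum (𝓞 K)) :
    nrm K s v.asIdeal < 1 := (nrm_prime_le_half hs v).trans_lt (by norm_num)

lemma norm_nrmHom_lt_one {s : ℝ} (hs : 1 ≤ s) (hs0 : s ≠ 0) (v : HeightOneSpectrum (𝓞 K)) :
    ‖nrmHom K s hs0 v.asIdeal‖ < 1 := by
  rw [nrmHom_apply, Real.norm_of_nonneg (nrm_nonneg _ _)]
  exact nrm_prime_lt_one hs v

/-- Finite Euler products are bounded by the zeta function. -/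
theorem prod_one_sub_inv_le_zetaR {s : ℝ} (hs : 1 < s) (T : Finset (HeightOneSpectrum (𝓞 K))) :
    ∏ v ∈ T, (1 - nrm K s v.asIdeal)⁻¹ ≤ zetaR K s := by
  classical
  have hs0 : s ≠ 0 := by linarith
  have h := prod_eq_tsum_factoredIdeals (nrmHom K s hs0) (norm_nrmHom_lt_one hs.le hs0) T
  simp only [nrmHom_apply] at h
  rw [h]
  exact Summable.tsum_subtype_le (nrm K s) _ (fun I ↦ nrm_nonneg s I) (summable_nrm K hs)

/-- `x ≤ -log (1 - x)` for `0 ≤ x < 1`. -/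
lemma le_neg_log_one_sub {x : ℝ} (hx : x < 1) : x ≤ -Real.log (1 - x) := by
  have := Real.log_le_sub_one_of_pos (show 0 < 1 - x by linarith)
  linarith

/-- `-log (1 - x) ≤ x + 2 * x ^ 2` for `0 ≤ x ≤ 1/2`. -/
lemma neg_log_one_sub_le {x : ℝ} (hx0 : 0 ≤ x) (hx : x ≤ 1 / 2) :
    -Real.log (1 - x) ≤ x + 2 * x ^ 2 := by
  have h1 : 0 < 1 - x := by linarith
  have h2 : -Real.log (1 - x) = Real.log (1 - x)⁻¹ := by rw [Real.log_inv]
  rw [h2]
  have h3 : (1 - x)⁻¹ ≤ 1 + x + 2 * x ^ 2 := by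
    rw [inv_le_iff_one_le_mul₀ h1]
    nlinarith [mul_nonneg hx0 hx0, mul_nonneg (mul_nonneg hx0 hx0) (by linarith : 0 ≤ 1 / 2 - x)]
  calc Real.log (1 - x)⁻¹ ≤ (1 - x)⁻¹ - 1 := Real.log_le_sub_one_of_pos (inv_pos.mpr h1)
    _ ≤ x + 2 * x ^ 2 := by linarith


lemma one_sub_nrm_pos {s : ℝ} (hs : 1 ≤ s) (v : HeightOneSpectrum (𝓞 K)) :
    0 < 1 - nrm K s v.asIdeal := by
  have := nrm_prime_lt_one hs v
  linarith

/-- **(A1)** Upper bound: a finite sum of `N(v)^(-s)` over primes is at most `log ζ_K(s)`. -/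
theorem sum_nrm_prime_le_log_zetaR {s : ℝ} (hs : 1 < s) (T : Finset (HeightOneSpectrum (𝓞 K))) :
    ∑ v ∈ T, nrm K s v.asIdeal ≤ Real.log (zetaR K s) := by
  have hpos : ∀ v ∈ T, (1 - nrm K s v.asIdeal)⁻¹ ≠ 0 := fun v _ ↦
    (inv_pos.mpr (one_sub_nrm_pos hs.le v)).ne'
  calc ∑ v ∈ T, nrm K s v.asIdeal
      ≤ ∑ v ∈ T, Real.log ((1 - nrm K s v.asIdeal)⁻¹) := by
        refine Finset.sum_le_sum fun v _ ↦ ?_
        rw [Real.log_inv]
        exact le_neg_log_one_sub (nrm_prime_lt_one hs.le v)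
    _ = Real.log (∏ v ∈ T, (1 - nrm K s v.asIdeal)⁻¹) := (Real.log_prod hpos).symm
    _ ≤ Real.log (zetaR K s) := by
        refine Real.log_le_log ?_ (prod_one_sub_inv_le_zetaR hs T)
        exact Finset.prod_pos fun v _ ↦ inv_pos.mpr (one_sub_nrm_pos hs.le v)

omit [NumberField K] in
/-- A finite sum over primes of a nonnegative summable function on ideals is bounded by the
total sum. -/
lemma sum_prime_le_tsum {g : Ideal (𝓞 K) → ℝ} (hg : ∀ I, 0 ≤ g I) (hsum : Summable g)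
    (T : Finset (HeightOneSpectrum (𝓞 K))) :
    ∑ v ∈ T, g v.asIdeal ≤ ∑' I, g I := by
  classical
  have hinj : Set.InjOn (fun v : HeightOneSpectrum (𝓞 K) ↦ v.asIdeal) T :=
    fun v _ w _ h ↦ HeightOneSpectrum.ext h
  rw [← Finset.sum_image (f := g) hinj]
  exact hsum.sum_le_tsum _ (fun I _ ↦ hg I)

/-- Partial Euler products are eventually at least half of `ζ_K(s)`. -/
lemma exists_finset_half_zetaR_le {s : ℝ} (hs : 1 < s) :
    ∃ T₀ : Finset (HeightOneSpectrum (𝓞 K)), ∀ T, T₀ ⊆ T →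
      zetaR K s / 2 ≤ ∏ v ∈ T, (1 - nrm K s v.asIdeal)⁻¹ := by
  have hs0 : s ≠ 0 := by linarith
  have hsum : Summable fun I : Ideal (𝓞 K) ↦ ‖nrmHom K s hs0 I‖ := by
    refine (summable_nrm K hs).congr fun I ↦ ?_
    rw [nrmHom_apply, Real.norm_of_nonneg (nrm_nonneg _ _)]
  have h := eulerProduct_ideal_hasProd (nrmHom K s hs0) hsum
  simp only [nrmHom_apply] at h
  have hz : zetaR K s / 2 < ∑' I : Ideal (𝓞 K), nrm K s I := by
    have := one_le_zetaR K hs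
    change zetaR K s / 2 < zetaR K s
    linarith
  rw [HasProd, SummationFilter.unconditional] at h
  obtain ⟨T₀, hT₀⟩ := Filter.eventually_atTop.mp (h.eventually (lt_mem_nhds hz))
  exact ⟨T₀, fun T hT ↦ (hT₀ T hT).le⟩

/-- **(A2, all primes)** Lower bound: some finite sum of `N(v)^(-s)` over primes is at least
`log ζ_K(s) - log 2 - 2 ζ_K(2)`; moreover this holds for all larger finite sets. -/
theorem exists_finset_log_zetaR_le {s : ℝ} (hs : 1 < s) :
    ∃ T₀ : Finset (HeightOneSpectrum (𝓞 K)), ∀ T, T₀ ⊆ T →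
      Real.log (zetaR K s) - Real.log 2 - 2 * zetaR K 2 ≤ ∑ v ∈ T, nrm K s v.asIdeal := by
  obtain ⟨T₀, hT₀⟩ := exists_finset_half_zetaR_le (K := K) hs
  refine ⟨T₀, fun T hT ↦ ?_⟩
  have hz := one_le_zetaR K hs
  have hpos : ∀ v ∈ T, (1 - nrm K s v.asIdeal)⁻¹ ≠ 0 := fun v _ ↦
    (inv_pos.mpr (one_sub_nrm_pos hs.le v)).ne'
  have h1 : Real.log (zetaR K s) - Real.log 2 ≤
      ∑ v ∈ T, Real.log ((1 - nrm K s v.asIdeal)⁻¹) := by
    rw [← Real.log_prod hpos, ← Real.log_div (by linarith) (by norm_num)]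
    exact Real.log_le_log (by linarith) (hT₀ T hT)
  have h2 : ∑ v ∈ T, Real.log ((1 - nrm K s v.asIdeal)⁻¹) ≤
      ∑ v ∈ T, (nrm K s v.asIdeal + 2 * nrm K 2 v.asIdeal) := by
    refine Finset.sum_le_sum fun v _ ↦ ?_
    rw [Real.log_inv]
    refine (neg_log_one_sub_le (nrm_nonneg _ _) (nrm_prime_le_half hs.le v)).trans ?_
    have hsq : nrm K s v.asIdeal ^ 2 ≤ nrm K 2 v.asIdeal := by
      have h21 : nrm K s v.asIdeal ^ 2 = nrm K (2 * s) v.asIdeal := by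
        rw [nrm, nrm, ← Real.rpow_natCast, ← Real.rpow_mul (Nat.cast_nonneg _)]
        congr 1
        push_cast
        ring
      rw [h21]
      exact nrm_anti (by norm_num) (by linarith) _
    linarith
  have h3 : ∑ v ∈ T, nrm K 2 v.asIdeal ≤ zetaR K 2 :=
    sum_prime_le_tsum (fun I ↦ nrm_nonneg 2 I) (summable_nrm K (by norm_num)) T
  rw [Finset.sum_add_distrib, ← Finset.mul_sum] at h2
  linarith

end

end Fermat.Agent.S14.H241
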