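/-
S14 / block B4 (density): primes of degree one carry all the mass of `∑ N(v)^(-s)` as `s → 1`.
(helper241)
-/
import Fermat.Agent.S14.H241.PrimeSum

set_option autoImplicit false

namespace Fermat.Agent.S14.H241

open NumberField Ideal Filter Topology Finset IsDedekindDomain

noncomputable section

variable {K : Type*} [Field K] [NumberField K]

/-- The rational prime below a prime ideal. -/
def primeBelow (v : HeightOneSpectrum (𝓞 K)) : ℕ := (absNorm v.asIdeal).minFac

lemma primeBelow_spec (v : HeightOneSpectrum (𝓞 K)) :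
    ∃ f : ℕ, 0 < f ∧ (primeBelow v).Prime ∧ ((primeBelow v : ℕ) : 𝓞 K) ∈ v.asIdeal ∧
      absNorm v.asIdeal = primeBelow v ^ f := by
  have := v.isMaximal
  obtain ⟨p, n, hn, hpv, hp, hN⟩ := exists_prime_and_absNorm_eq_pow v.asIdeal
  have h : primeBelow v = p := by rw [primeBelow, hN, hp.pow_minFac hn.ne']
  exact ⟨n, hn, h ▸ hp, h ▸ hpv, h ▸ hN⟩

lemma primeBelow_prime (v : HeightOneSpectrum (𝓞 K)) : (primeBelow v).Prime :=
  let ⟨_, _, h, _⟩ := primeBelow_spec v; h

lemma primeBelow_mem (v : HeightOneSpectrum (𝓞 K)) : ((primeBelow v : ℕ) : 𝓞 K) ∈ v.asIdeal :=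
  let ⟨_, _, _, h, _⟩ := primeBelow_spec v; h

lemma sq_primeBelow_le (v : HeightOneSpectrum (𝓞 K)) (hv : ¬ (absNorm v.asIdeal).Prime) :
    primeBelow v ^ 2 ≤ absNorm v.asIdeal := by
  obtain ⟨f, hf, hp, -, hN⟩ := primeBelow_spec v
  have hf2 : 2 ≤ f := by
    by_contra h
    have : f = 1 := by omega
    rw [this, pow_one] at hN
    exact hv (hN ▸ hp)
  rw [hN]
  exact Nat.pow_le_pow_right hp.pos hf2

/-- At most `[K : ℚ]` primes of `𝓞 K` contain a given rational prime. -/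
lemma card_le_finrank_of_mem {p : ℕ} (hp : p.Prime) (S : Finset (HeightOneSpectrum (𝓞 K)))
    (hS : ∀ v ∈ S, ((p : ℕ) : 𝓞 K) ∈ v.asIdeal) : S.card ≤ Module.finrank ℚ K := by
  classical
  have hinj : Set.InjOn (fun v : HeightOneSpectrum (𝓞 K) ↦ v.asIdeal) S :=
    fun v _ w _ h ↦ HeightOneSpectrum.ext h
  have hdvd : ∏ v ∈ S, v.asIdeal ∣ Ideal.span {((p : ℕ) : 𝓞 K)} := by
    rw [← Finset.prod_image (f := fun I : Ideal (𝓞 K) ↦ I) hinj]
    refine Finset.prod_primes_dvd _ (fun I hI ↦ ?_) (fun I hI ↦ ?_)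
    · obtain ⟨v, -, rfl⟩ := Finset.mem_image.mp hI
      exact v.prime
    · obtain ⟨v, hv, rfl⟩ := Finset.mem_image.mp hI
      rw [Ideal.dvd_iff_le, Ideal.span_singleton_le_iff_mem]
      exact hS v hv
  have hN : absNorm (Ideal.span {((p : ℕ) : 𝓞 K)}) = p ^ Module.finrank ℚ K := by
    rw [absNorm_span_singleton, show ((p : ℕ) : 𝓞 K) = algebraMap ℤ (𝓞 K) (p : ℤ) by simp,
      Algebra.norm_algebraMap, Int.natAbs_pow, Int.natAbs_natCast, RingOfIntegers.rank]
  have h1 : ∏ v ∈ S, absNorm v.asIdeal ∣ p ^ Module.finrank ℚ K := by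
    rw [← hN, ← map_prod]
    exact map_dvd absNorm hdvd
  have h2 : ∀ v ∈ S, p ∣ absNorm v.asIdeal := fun v hv ↦ by
    have hv1 : absNorm v.asIdeal ∣ p ^ Module.finrank ℚ K := by
      rw [← hN]
      exact absNorm_dvd_absNorm_of_le ((Ideal.span_singleton_le_iff_mem _).mpr (hS v hv))
    obtain ⟨k, -, hk⟩ := (Nat.dvd_prime_pow hp).mp hv1
    rw [hk]
    refine dvd_pow_self p fun h0 ↦ ?_
    rw [h0, pow_zero] at hk
    have := two_le_absNorm v
    omega
  have h3 : p ^ S.card ∣ p ^ Module.finrank ℚ K := by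
    rw [← Finset.prod_const]
    exact (Finset.prod_dvd_prod_of_dvd _ _ h2).trans h1
  exact (Nat.pow_dvd_pow_iff_le_right hp.one_lt).mp h3

/-- The constant bounding the contribution of primes of degree at least two. -/
def degTwoConst (K : Type*) [Field K] [NumberField K] : ℝ :=
  Module.finrank ℚ K * ∑' m : ℕ, ((m : ℝ) ^ 2)⁻¹

lemma degTwoConst_nonneg : 0 ≤ degTwoConst K :=
  mul_nonneg (Nat.cast_nonneg _) (tsum_nonneg fun _ ↦ by positivity)

/-- The primes whose norm is not a rational prime contribute a bounded amount to `∑ N(v)⁻¹`. -/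
theorem sum_nrm_one_nonprime_le (T : Finset (HeightOneSpectrum (𝓞 K)))
    (hT : ∀ v ∈ T, ¬ (absNorm v.asIdeal).Prime) :
    ∑ v ∈ T, nrm K 1 v.asIdeal ≤ degTwoConst K := by
  classical
  set g : ℕ → ℝ := fun m ↦ ((m : ℝ) ^ 2)⁻¹ with hg
  have hgsum : Summable g := Real.summable_nat_pow_inv.mpr one_lt_two
  have hg0 : ∀ m, 0 ≤ g m := fun m ↦ by positivity
  have h1 : ∑ v ∈ T, nrm K 1 v.asIdeal ≤ ∑ v ∈ T, g (primeBelow v) := by
    refine Finset.sum_le_sum fun v hv ↦ ?_
    have hp := (primeBelow_prime v).pos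
    have hle : ((primeBelow v : ℕ) : ℝ) ^ 2 ≤ (absNorm v.asIdeal : ℕ) := by
      exact_mod_cast sq_primeBelow_le v (hT v hv)
    rw [nrm, Real.rpow_neg_one]
    exact inv_anti₀ (by positivity) hle
  have h2 : ∑ v ∈ T, g (primeBelow v) =
      ∑ p ∈ T.image primeBelow, ({v ∈ T | primeBelow v = p}.card : ℝ) * g p := by
    rw [Finset.sum_comp g primeBelow]
    simp only [nsmul_eq_mul]
  have h3 : ∑ p ∈ T.image primeBelow, ({v ∈ T | primeBelow v = p}.card : ℝ) * g p ≤
      ∑ p ∈ T.image primeBelow, (Module.finrank ℚ K : ℝ) * g p := by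
    refine Finset.sum_le_sum fun p hp ↦ ?_
    obtain ⟨w, -, rfl⟩ := Finset.mem_image.mp hp
    refine mul_le_mul_of_nonneg_right ?_ (hg0 _)
    have := card_le_finrank_of_mem (primeBelow_prime w) {v ∈ T | primeBelow v = primeBelow w}
      (fun v hv ↦ by
        rw [Finset.mem_filter] at hv
        rw [← hv.2]
        exact primeBelow_mem v)
    exact_mod_cast this
  have h4 : ∑ p ∈ T.image primeBelow, (Module.finrank ℚ K : ℝ) * g p ≤ degTwoConst K := by
    rw [← Finset.mul_sum, degTwoConst]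
    exact mul_le_mul_of_nonneg_left (hgsum.sum_le_tsum _ fun m _ ↦ hg0 m) (Nat.cast_nonneg _)
  linarith

/-- **(A2)** Lower bound for sums over primes of degree one avoiding a finite set:
there is a constant `C` such that for every `s ∈ (1, 2]` some finite set `T` of primes with prime
norm, disjoint from `E`, satisfies `log (1 / (s - 1)) - C ≤ ∑ v ∈ T, N(v)^(-s)`. -/
theorem exists_degree_one_sum_ge (E : Finset (HeightOneSpectrum (𝓞 K))) :
    ∃ C : ℝ, ∀ s : ℝ, 1 < s → s ≤ 2 →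
      ∃ T : Finset (HeightOneSpectrum (𝓞 K)),
        (∀ v ∈ T, (absNorm v.asIdeal).Prime ∧ v ∉ E) ∧
          Real.log (1 / (s - 1)) - C ≤ ∑ v ∈ T, nrm K s v.asIdeal := by
  classical
  obtain ⟨c, C₀, hc, -, hbd⟩ := exists_zetaR_bounds K
  refine ⟨-Real.log c + Real.log 2 + 2 * zetaR K 2 + degTwoConst K + E.card, fun s hs hs2 ↦ ?_⟩
  obtain ⟨T₀, hT₀⟩ := exists_finset_log_zetaR_le (K := K) hs
  have hT := hT₀ T₀ (Finset.Subset.refl _)
  refine ⟨{v ∈ T₀ | (absNorm v.asIdeal).Prime ∧ v ∉ E}, fun v hv ↦ (Finset.mem_filter.mp hv).2, ?_⟩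
  -- split the sum
  have hsplit := Finset.sum_filter_add_sum_filter_not T₀
    (fun v ↦ (absNorm v.asIdeal).Prime ∧ v ∉ E) (fun v ↦ nrm K s v.asIdeal)
  -- bound the complementary part
  have hcompl : ∑ v ∈ T₀ with ¬((absNorm v.asIdeal).Prime ∧ v ∉ E), nrm K s v.asIdeal ≤
      degTwoConst K + E.card := by
    have hsub : {v ∈ T₀ | ¬((absNorm v.asIdeal).Prime ∧ v ∉ E)} ⊆
        {v ∈ T₀ | ¬ (absNorm v.asIdeal).Prime} ∪ E := by
      intro v hv
      rw [Finset.mem_filter] at hv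
      rw [Finset.mem_union, Finset.mem_filter]
      by_cases h : (absNorm v.asIdeal).Prime
      · right
        by_contra hE
        exact hv.2 ⟨h, hE⟩
      · exact Or.inl ⟨hv.1, h⟩
    calc ∑ v ∈ T₀ with ¬((absNorm v.asIdeal).Prime ∧ v ∉ E), nrm K s v.asIdeal
        ≤ ∑ v ∈ {v ∈ T₀ | ¬ (absNorm v.asIdeal).Prime} ∪ E, nrm K s v.asIdeal :=
          Finset.sum_le_sum_of_subset_of_nonneg hsub fun v _ _ ↦ nrm_nonneg _ _
      _ ≤ ∑ v ∈ {v ∈ T₀ | ¬ (absNorm v.asIdeal).Prime}, nrm K s v.asIdeal +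
            ∑ v ∈ E, nrm K s v.asIdeal :=
          by
            have h := Finset.sum_union_inter (s₁ := {v ∈ T₀ | ¬ (absNorm v.asIdeal).Prime})
              (s₂ := E) (f := fun v ↦ nrm K s v.asIdeal)
            have h' : 0 ≤ ∑ v ∈ {v ∈ T₀ | ¬ (absNorm v.asIdeal).Prime} ∩ E, nrm K s v.asIdeal :=
              Finset.sum_nonneg fun v _ ↦ nrm_nonneg _ _
            linarith
      _ ≤ degTwoConst K + E.card := by
          refine add_le_add ?_ ?_
          · refine le_trans (Finset.sum_le_sum fun v _ ↦ nrm_anti one_pos hs.le v.asIdeal) ?_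
            exact sum_nrm_one_nonprime_le _ fun v hv ↦ (Finset.mem_filter.mp hv).2
          · calc ∑ v ∈ E, nrm K s v.asIdeal ≤ ∑ _v ∈ E, (1 : ℝ) :=
                  Finset.sum_le_sum fun v _ ↦ nrm_le_one (by linarith) _
              _ = E.card := by simp
  -- lower bound for log ζ
  have hz : Real.log (1 / (s - 1)) + Real.log c ≤ Real.log (zetaR K s) := by
    have hs1 : 0 < s - 1 := by linarith
    rw [← Real.log_mul (by positivity) hc.ne']
    refine Real.log_le_log (by positivity) ?_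
    have := (hbd s hs hs2).1
    rw [one_div, inv_mul_le_iff₀ hs1]
    linarith
  linarith

end

end Fermat.Agent.S14.H241
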