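/-
S14 / block B4 (density), piece N2: primes on which an ideal character of prime order `p` is
trivial have upper density at most `1 / p`, given that the twisted L-series are bounded.
(helper241)
-/
import Fermat.Agent.S14.H241.DegreeOne

set_option autoImplicit false

namespace Fermat.Agent.S14.H241

open NumberField Ideal Filter Topology Finset IsDedekindDomain

noncomputable section

variable {K : Type*} [Field K] [NumberField K]

/-- `I ↦ ψ(I)^k N(I)^(-s)` as a monoid-with-zero homomorphism. -/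
def twist (ψ : Ideal (𝓞 K) →*₀ ℂ) (k : ℕ) (s : ℝ) (hs : s ≠ 0) : Ideal (𝓞 K) →*₀ ℂ where
  toFun I := ψ I ^ k * (nrm K s I : ℂ)
  map_zero' := by
    have h0 : nrm K s (0 : Ideal (𝓞 K)) = 0 := nrm_bot hs
    rw [h0, Complex.ofReal_zero, mul_zero]
  map_one' := by
    have h1 : nrm K s (1 : Ideal (𝓞 K)) = 1 := by rw [Ideal.one_eq_top]; exact nrm_top s
    rw [h1, map_one, one_pow, Complex.ofReal_one, mul_one]
  map_mul' I J := by
    simp only [map_mul, nrm_mul, mul_pow, Complex.ofReal_mul]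
    ring

@[simp] lemma twist_apply (ψ : Ideal (𝓞 K) →*₀ ℂ) (k : ℕ) (s : ℝ) (hs : s ≠ 0)
    (I : Ideal (𝓞 K)) : twist ψ k s hs I = ψ I ^ k * (nrm K s I : ℂ) := rfl

/-- The twisted L-series `∑_I ψ(I)^k N(I)^(-s)`. -/
def LSum (ψ : Ideal (𝓞 K) →*₀ ℂ) (k : ℕ) (s : ℝ) : ℂ :=
  ∑' I : Ideal (𝓞 K), ψ I ^ k * (nrm K s I : ℂ)

lemma norm_twist_le {ψ : Ideal (𝓞 K) →*₀ ℂ} (hψ : ∀ I, ‖ψ I‖ ≤ 1) (k : ℕ) (s : ℝ) (hs : s ≠ 0)
    (I : Ideal (𝓞 K)) : ‖twist ψ k s hs I‖ ≤ nrm K s I := by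
  rw [twist_apply, norm_mul, norm_pow, Complex.norm_real, Real.norm_of_nonneg (nrm_nonneg _ _)]
  exact mul_le_of_le_one_left (nrm_nonneg _ _) (pow_le_one₀ (norm_nonneg _) (hψ I))

lemma summable_norm_twist {ψ : Ideal (𝓞 K) →*₀ ℂ} (hψ : ∀ I, ‖ψ I‖ ≤ 1) (k : ℕ) {s : ℝ}
    (hs : 1 < s) : Summable fun I : Ideal (𝓞 K) ↦ ‖twist ψ k s (by linarith) I‖ :=
  Summable.of_nonneg_of_le (fun _ ↦ norm_nonneg _) (norm_twist_le hψ k s _) (summable_nrm K hs)

/-- Euler product of the twisted L-series. -/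
theorem hasProd_twist {ψ : Ideal (𝓞 K) →*₀ ℂ} (hψ : ∀ I, ‖ψ I‖ ≤ 1) (k : ℕ) {s : ℝ}
    (hs : 1 < s) :
    HasProd (fun v : HeightOneSpectrum (𝓞 K) ↦
      (1 - ψ v.asIdeal ^ k * (nrm K s v.asIdeal : ℂ))⁻¹) (LSum ψ k s) :=
  eulerProduct_ideal_hasProd (twist ψ k s (by linarith)) (summable_norm_twist hψ k hs)

lemma LSum_zero (ψ : Ideal (𝓞 K) →*₀ ℂ) (s : ℝ) :
    LSum ψ 0 s = (zetaR K s : ℂ) := by
  simp only [LSum, pow_zero, one_mul, zetaR]
  exact (Complex.ofReal_tsum _).symm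

/-- A root of unity of prime order which is not `1` is primitive. -/
lemma isPrimitiveRoot_of_prime {p : ℕ} (hp : p.Prime) {ω : ℂ} (hω : ω ^ p = 1) (h1 : ω ≠ 1) :
    IsPrimitiveRoot ω p := by
  rw [IsPrimitiveRoot.iff_orderOf]
  rcases hp.eq_one_or_self_of_dvd _ (orderOf_dvd_of_pow_eq_one hω) with h | h
  · exact absurd (orderOf_eq_one_iff.mp h) h1
  · exact h

/-- `∏_{k < p} (1 - ω^k x) = 1 - x^p` for a primitive `p`-th root of unity `ω`. -/
lemma prod_one_sub_pow_mul {p : ℕ} (hp : 0 < p) {ω : ℂ} (hω : IsPrimitiveRoot ω p) (x : ℂ) :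
    ∏ k ∈ range p, (1 - ω ^ k * x) = 1 - x ^ p := by
  classical
  have h := hω.pow_sub_pow_eq_prod_sub_mul (1 : ℂ) x hp
  rw [one_pow] at h
  rw [h]
  have himg : (range p).image (fun k ↦ ω ^ k) = Polynomial.nthRootsFinset p (1 : ℂ) := by
    refine Finset.eq_of_subset_of_card_le (fun z hz ↦ ?_) ?_
    · obtain ⟨k, -, rfl⟩ := Finset.mem_image.mp hz
      rw [Polynomial.mem_nthRootsFinset hp, ← pow_mul, mul_comm, pow_mul, hω.pow_eq_one, one_pow]
    · rw [hω.card_nthRootsFinset, Finset.card_image_of_injOn, Finset.card_range]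
      intro i hi j hj hij
      exact hω.pow_inj (Finset.mem_range.mp hi) (Finset.mem_range.mp hj) hij
  rw [← himg, Finset.prod_image]
  intro i hi j hj hij
  exact hω.pow_inj (Finset.mem_range.mp hi) (Finset.mem_range.mp hj) hij

/-- The real local factor of `∏_{k<p} L(s, ψ^k)` at a prime. -/
def localFactor (p : ℕ) (ω : ℂ) (x : ℝ) : ℝ :=
  if ω = 1 then ((1 - x) ^ p)⁻¹ else (1 - x ^ p)⁻¹

lemma prod_inv_eq_localFactor {p : ℕ} (hp : p.Prime) {ω : ℂ} (hω : ω ^ p = 1) (x : ℝ) :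
    ∏ k ∈ range p, (1 - ω ^ k * (x : ℂ))⁻¹ = (localFactor p ω x : ℂ) := by
  rw [Finset.prod_inv_distrib, localFactor]
  split_ifs with h1
  · subst h1
    simp
  · rw [prod_one_sub_pow_mul hp.pos (isPrimitiveRoot_of_prime hp hω h1)]
    push_cast
    rfl

lemma one_le_localFactor {p : ℕ} (hp : p ≠ 0) (ω : ℂ) {x : ℝ} (hx0 : 0 ≤ x) (hx1 : x < 1) :
    1 ≤ localFactor p ω x := by
  rw [localFactor]
  split_ifs
  · rw [one_le_inv₀ (pow_pos (by linarith) p)]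
    exact pow_le_one₀ (by linarith) (by linarith)
  · have hxp : x ^ p < 1 := pow_lt_one₀ hx0 hx1 hp
    rw [one_le_inv₀ (by linarith)]
    have := pow_nonneg hx0 p
    linarith


lemma exp_le_inv_one_sub {x : ℝ} (hx : x < 1) : Real.exp x ≤ (1 - x)⁻¹ := by
  have h1 : 0 < 1 - x := by linarith
  have h2 : 1 - x ≤ Real.exp (-x) := by linarith [Real.add_one_le_exp (-x)]
  rw [Real.exp_neg] at h2
  rw [le_inv_comm₀ (Real.exp_pos x) h1]
  exact h2

lemma one_le_prod_of_one_le {ι : Type*} (s : Finset ι) (f : ι → ℝ) (h : ∀ i ∈ s, 1 ≤ f i) :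
    1 ≤ ∏ i ∈ s, f i := by
  have := Finset.prod_le_prod (s := s) (f := fun _ ↦ (1 : ℝ)) (g := f)
    (fun _ _ ↦ zero_le_one) h
  simpa using this

/-- For a family of real numbers `≥ 1` with convergent product, every finite partial product is
bounded by the value of the infinite product. -/
lemma prod_le_of_hasProd_of_one_le {ι : Type*} {g : ι → ℝ} {a : ℝ} (hg : ∀ i, 1 ≤ g i)
    (h : HasProd g a) (T : Finset ι) : ∏ i ∈ T, g i ≤ a := by
  classical
  rw [HasProd, SummationFilter.unconditional] at h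
  refine ge_of_tendsto h ?_
  filter_upwards [Filter.eventually_ge_atTop T] with T' hT'
  rw [← Finset.prod_sdiff hT']
  have h1 : 1 ≤ ∏ i ∈ T' \ T, g i := one_le_prod_of_one_le _ _ fun i _ ↦ hg i
  have h2 : 0 ≤ ∏ i ∈ T, g i := Finset.prod_nonneg fun i _ ↦ zero_le_one.trans (hg i)
  nlinarith

/-- **(A3, core)** For an ideal character `ψ` of prime order `p`, and a finite set `T` of primes
on which `ψ` is trivial: `p * ∑_{v ∈ T} N(v)^(-s) ≤ log ‖∏_{k<p} L(s, ψ^k)‖`. -/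
theorem mul_sum_nrm_le_log_norm_prod {ψ : Ideal (𝓞 K) →*₀ ℂ} (hψ : ∀ I, ‖ψ I‖ ≤ 1)
    {p : ℕ} (hp : p.Prime) (hψp : ∀ v : HeightOneSpectrum (𝓞 K), ψ v.asIdeal ^ p = 1)
    {s : ℝ} (hs : 1 < s) (T : Finset (HeightOneSpectrum (𝓞 K)))
    (hT : ∀ v ∈ T, ψ v.asIdeal = 1) :
    0 < ‖∏ k ∈ range p, LSum ψ k s‖ ∧
      (p : ℝ) * ∑ v ∈ T, nrm K s v.asIdeal ≤ Real.log ‖∏ k ∈ range p, LSum ψ k s‖ := by
  have hprod : HasProd (fun v : HeightOneSpectrum (𝓞 K) ↦
      ∏ k ∈ range p, (1 - ψ v.asIdeal ^ k * (nrm K s v.asIdeal : ℂ))⁻¹)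
      (∏ k ∈ range p, LSum ψ k s) := hasProd_prod fun k _ ↦ hasProd_twist hψ k hs
  simp_rw [prod_inv_eq_localFactor hp (hψp _)] at hprod
  have hloc1 : ∀ v : HeightOneSpectrum (𝓞 K),
      1 ≤ localFactor p (ψ v.asIdeal) (nrm K s v.asIdeal) := fun v ↦
    one_le_localFactor hp.ne_zero _ (nrm_nonneg _ _) (nrm_prime_lt_one hs.le v)
  have hnorm := hprod.norm
  simp only [Complex.norm_real, Real.norm_eq_abs] at hnorm
  have hnorm' : HasProd (fun v : HeightOneSpectrum (𝓞 K) ↦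
      localFactor p (ψ v.asIdeal) (nrm K s v.asIdeal)) ‖∏ k ∈ range p, LSum ψ k s‖ := by
    have hfun : (fun v : HeightOneSpectrum (𝓞 K) ↦
        |localFactor p (ψ v.asIdeal) (nrm K s v.asIdeal)|) =
        fun v ↦ localFactor p (ψ v.asIdeal) (nrm K s v.asIdeal) :=
      funext fun v ↦ abs_of_nonneg (zero_le_one.trans (hloc1 v))
    rwa [hfun] at hnorm
  have hle := prod_le_of_hasProd_of_one_le hloc1 hnorm' T
  have hge : Real.exp ((p : ℝ) * ∑ v ∈ T, nrm K s v.asIdeal) ≤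
      ∏ v ∈ T, localFactor p (ψ v.asIdeal) (nrm K s v.asIdeal) := by
    rw [Finset.mul_sum, Real.exp_sum]
    refine Finset.prod_le_prod (fun _ _ ↦ (Real.exp_pos _).le) fun v hv ↦ ?_
    rw [localFactor, if_pos (hT v hv), ← inv_pow, mul_comm, Real.exp_mul, Real.rpow_natCast]
    exact pow_le_pow_left₀ (Real.exp_pos _).le
      (exp_le_inv_one_sub (nrm_prime_lt_one hs.le v)) p
  have hpos : 0 < ‖∏ k ∈ range p, LSum ψ k s‖ := (Real.exp_pos _).trans_le (hge.trans hle)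
  refine ⟨hpos, ?_⟩
  rw [← Real.log_exp ((p : ℝ) * ∑ v ∈ T, nrm K s v.asIdeal)]
  exact Real.log_le_log (Real.exp_pos _) (hge.trans hle)

end

end Fermat.Agent.S14.H241
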