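/-
S14 / block B4 (density), pieces N2-N5: the density count.  Given
* an ideal character `ψ` of prime order `p ≥ 3` whose twisted L-series are bounded on `(1, 2]`,
* a set `S` of primes of `K` each of which has `p` distinct primes of the same norm above it in
  an auxiliary number field `M`,
there is a prime of degree one of `K`, outside any given finite set, with `ψ ≠ 1` and not in `S`.
(helper241)
-/
import Fermat.Agent.S14.H241.CharSum

set_option autoImplicit false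

namespace Fermat.Agent.S14.H241

open NumberField Ideal Filter Topology Finset IsDedekindDomain

noncomputable section

variable {K : Type*} [Field K] [NumberField K]

/-- Upper bound `log ζ_K(s) ≤ log (1 / (s - 1)) + C` on `(1, 2]`. -/
lemma exists_log_zetaR_le (K : Type*) [Field K] [NumberField K] :
    ∃ C : ℝ, ∀ s : ℝ, 1 < s → s ≤ 2 → Real.log (zetaR K s) ≤ Real.log (1 / (s - 1)) + C := by
  obtain ⟨c, C₀, -, hC₀, hbd⟩ := exists_zetaR_bounds K
  refine ⟨Real.log C₀, fun s hs hs2 ↦ ?_⟩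
  have hs1 : 0 < s - 1 := by linarith
  rw [← Real.log_mul (by positivity) hC₀.ne']
  refine Real.log_le_log (by linarith [one_le_zetaR K hs]) ?_
  have := (hbd s hs hs2).2
  rw [one_div, ← div_eq_inv_mul, le_div_iff₀ hs1]
  linarith

/-- **(A1')** Upper bound for all finite prime sums. -/
theorem exists_prime_sum_le (K : Type*) [Field K] [NumberField K] :
    ∃ C : ℝ, ∀ s : ℝ, 1 < s → s ≤ 2 → ∀ T : Finset (HeightOneSpectrum (𝓞 K)),
      ∑ v ∈ T, nrm K s v.asIdeal ≤ Real.log (1 / (s - 1)) + C := by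
  obtain ⟨C, hC⟩ := exists_log_zetaR_le K
  exact ⟨C, fun s hs hs2 T ↦ (sum_nrm_prime_le_log_zetaR hs T).trans (hC s hs hs2)⟩

/-- **(A3)** If the twisted L-series `L(s, ψ^k)`, `0 < k < p`, are bounded on `(1, 2]`, then the
primes with `ψ = 1` have upper density at most `1 / p`. -/
theorem exists_char_one_sum_le {ψ : Ideal (𝓞 K) →*₀ ℂ} (hψ : ∀ I, ‖ψ I‖ ≤ 1)
    {p : ℕ} (hp : p.Prime) (hψp : ∀ v : HeightOneSpectrum (𝓞 K), ψ v.asIdeal ^ p = 1)
    (hL : ∃ B : ℝ, ∀ k : ℕ, 1 ≤ k → k < p → ∀ s : ℝ, 1 < s → s ≤ 2 → ‖LSum ψ k s‖ ≤ B) :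
    ∃ C : ℝ, ∀ s : ℝ, 1 < s → s ≤ 2 → ∀ T : Finset (HeightOneSpectrum (𝓞 K)),
      (∀ v ∈ T, ψ v.asIdeal = 1) →
        (p : ℝ) * ∑ v ∈ T, nrm K s v.asIdeal ≤ Real.log (1 / (s - 1)) + C := by
  obtain ⟨B, hB⟩ := hL
  obtain ⟨C₀, hC₀⟩ := exists_log_zetaR_le K
  set B' := max B 1 with hB'
  have hB'1 : 1 ≤ B' := le_max_right _ _
  refine ⟨C₀ + (p - 1 : ℕ) * Real.log B', fun s hs hs2 T hT ↦ ?_⟩
  obtain ⟨hpos, hle⟩ := mul_sum_nrm_le_log_norm_prod hψ hp hψp hs T hT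
  refine hle.trans ?_
  have hz := one_le_zetaR K hs
  -- split off the `k = 0` factor
  obtain ⟨n, hn⟩ : ∃ n, p = n + 1 := ⟨p - 1, (Nat.succ_pred_eq_of_pos hp.pos).symm⟩
  have hnorm : ‖∏ k ∈ range p, LSum ψ k s‖ ≤ zetaR K s * B' ^ (p - 1) := by
    rw [hn, Finset.prod_range_succ', norm_mul, LSum_zero, Complex.norm_real,
      Real.norm_of_nonneg (by linarith), mul_comm, Nat.add_sub_cancel, norm_prod]
    refine mul_le_mul_of_nonneg_left ?_ (by linarith)
    calc ∏ k ∈ range n, ‖LSum ψ (k + 1) s‖ ≤ ∏ _k ∈ range n, B' :=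
          Finset.prod_le_prod (fun _ _ ↦ norm_nonneg _) fun k hk ↦
            (hB (k + 1) (by omega) (by have := Finset.mem_range.mp hk; omega) s hs hs2).trans
              (le_max_left _ _)
      _ = B' ^ n := by simp
  calc Real.log ‖∏ k ∈ range p, LSum ψ k s‖
      ≤ Real.log (zetaR K s * B' ^ (p - 1)) := Real.log_le_log hpos hnorm
    _ = Real.log (zetaR K s) + (p - 1 : ℕ) * Real.log B' := by
        rw [Real.log_mul (by linarith) (by positivity), Real.log_pow]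
    _ ≤ Real.log (1 / (s - 1)) + (C₀ + (p - 1 : ℕ) * Real.log B') := by
        linarith [hC₀ s hs hs2]

/-- **(N3, analytic half)** If every prime in `S` has `p` distinct primes of the same absolute
norm above it in the number field `M` (encoded by pairwise disjoint finsets `W v`), then `S` has
upper density at most `1 / p`. -/
theorem exists_split_sum_le (M : Type*) [Field M] [NumberField M] {p : ℕ}
    (S : Set (HeightOneSpectrum (𝓞 K)))
    (W : HeightOneSpectrum (𝓞 K) → Finset (HeightOneSpectrum (𝓞 M)))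
    (hcard : ∀ v ∈ S, (W v).card = p)
    (hnorm : ∀ v ∈ S, ∀ w ∈ W v, absNorm w.asIdeal = absNorm v.asIdeal)
    (hdisj : ∀ v ∈ S, ∀ v' ∈ S, v ≠ v' → Disjoint (W v) (W v')) :
    ∃ C : ℝ, ∀ s : ℝ, 1 < s → s ≤ 2 → ∀ T : Finset (HeightOneSpectrum (𝓞 K)),
      (∀ v ∈ T, v ∈ S) →
        (p : ℝ) * ∑ v ∈ T, nrm K s v.asIdeal ≤ Real.log (1 / (s - 1)) + C := by
  classical
  obtain ⟨C, hC⟩ := exists_prime_sum_le M
  refine ⟨C, fun s hs hs2 T hT ↦ ?_⟩
  have hpd : (T : Set (HeightOneSpectrum (𝓞 K))).PairwiseDisjoint W := fun v hv v' hv' hne ↦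
    hdisj v (hT v hv) v' (hT v' hv') hne
  have key : ∑ w ∈ T.biUnion W, nrm M s w.asIdeal = (p : ℝ) * ∑ v ∈ T, nrm K s v.asIdeal := by
    rw [Finset.sum_biUnion hpd, Finset.mul_sum]
    refine Finset.sum_congr rfl fun v hv ↦ ?_
    have : ∀ w ∈ W v, nrm M s w.asIdeal = nrm K s v.asIdeal := fun w hw ↦ by
      rw [nrm, nrm, hnorm v (hT v hv) w hw]
    rw [Finset.sum_congr rfl this, Finset.sum_const, hcard v (hT v hv), nsmul_eq_mul]
  rw [← key]
  exact hC s hs hs2 _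

/-- **(N5) The density count.**  Let `ψ` be an ideal character of odd prime order `p` whose
twisted L-series are bounded on `(1, 2]`, and `S` a set of primes of upper density `≤ 1 / p`
(in the finite-sum sense).  Then there is a prime `v` of degree one, outside the finite set `E`,
with `ψ v ≠ 1` and `v ∉ S`. -/
theorem exists_prime_not_mem {ψ : Ideal (𝓞 K) →*₀ ℂ} (hψ : ∀ I, ‖ψ I‖ ≤ 1)
    {p : ℕ} (hp : p.Prime) (hp2 : p ≠ 2)
    (hψp : ∀ v : HeightOneSpectrum (𝓞 K), ψ v.asIdeal ^ p = 1)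
    (hL : ∃ B : ℝ, ∀ k : ℕ, 1 ≤ k → k < p → ∀ s : ℝ, 1 < s → s ≤ 2 → ‖LSum ψ k s‖ ≤ B)
    (S : Set (HeightOneSpectrum (𝓞 K)))
    (hS : ∃ C : ℝ, ∀ s : ℝ, 1 < s → s ≤ 2 → ∀ T : Finset (HeightOneSpectrum (𝓞 K)),
      (∀ v ∈ T, v ∈ S) → (p : ℝ) * ∑ v ∈ T, nrm K s v.asIdeal ≤ Real.log (1 / (s - 1)) + C)
    (E : Finset (HeightOneSpectrum (𝓞 K))) :
    ∃ v : HeightOneSpectrum (𝓞 K),
      (absNorm v.asIdeal).Prime ∧ v ∉ E ∧ ψ v.asIdeal ≠ 1 ∧ v ∉ S := by
  classical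
  by_contra hcon
  have hcov : ∀ v : HeightOneSpectrum (𝓞 K), (absNorm v.asIdeal).Prime → v ∉ E →
      ψ v.asIdeal ≠ 1 → v ∈ S := fun v h1 h2 h3 ↦ by
    by_contra h4
    exact hcon ⟨v, h1, h2, h3, h4⟩
  obtain ⟨C₁, hC₁⟩ := exists_char_one_sum_le hψ hp hψp hL
  obtain ⟨C₂, hC₂⟩ := hS
  obtain ⟨C₃, hC₃⟩ := exists_degree_one_sum_ge (K := K) E
  have hp3 : (3 : ℝ) ≤ p := by
    have := hp.two_le
    have : 3 ≤ p := by omega
    exact_mod_cast this
  -- choose `s` with `log (1 / (s - 1)) = X` large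
  set X : ℝ := max (C₁ + C₂ + p * C₃) 0 + 1 with hX
  have hX0 : 0 < X := by positivity
  have hXge : C₁ + C₂ + p * C₃ < X := lt_of_le_of_lt (le_max_left _ _) (lt_add_one _)
  set s : ℝ := 1 + Real.exp (-X) with hs
  have hs1 : 1 < s := by
    have := Real.exp_pos (-X)
    linarith
  have hs2 : s ≤ 2 := by
    have : Real.exp (-X) ≤ 1 := Real.exp_le_one_iff.mpr (by linarith)
    linarith
  have hlog : Real.log (1 / (s - 1)) = X := by
    rw [hs, add_sub_cancel_left, one_div, ← Real.exp_neg, neg_neg, Real.log_exp]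
  obtain ⟨T, hTprop, hTsum⟩ := hC₃ s hs1 hs2
  have h1 := hC₁ s hs1 hs2 {v ∈ T | ψ v.asIdeal = 1} fun v hv ↦ (Finset.mem_filter.mp hv).2
  have h2 := hC₂ s hs1 hs2 {v ∈ T | ¬ ψ v.asIdeal = 1} fun v hv ↦ by
    rw [Finset.mem_filter] at hv
    exact hcov v (hTprop v hv.1).1 (hTprop v hv.1).2 hv.2
  have hsplit := Finset.sum_filter_add_sum_filter_not T
    (fun v ↦ ψ v.asIdeal = 1) (fun v ↦ nrm K s v.asIdeal)
  rw [hlog] at h1 h2 hTsum
  have h3 : (p : ℝ) * (X - C₃) ≤ 2 * X + C₁ + C₂ := by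
    calc (p : ℝ) * (X - C₃) ≤ p * ∑ v ∈ T, nrm K s v.asIdeal :=
          mul_le_mul_of_nonneg_left hTsum (by positivity)
      _ = p * ∑ v ∈ T with ψ v.asIdeal = 1, nrm K s v.asIdeal +
            p * ∑ v ∈ T with ¬ ψ v.asIdeal = 1, nrm K s v.asIdeal := by
          rw [← hsplit, mul_add]
      _ ≤ 2 * X + C₁ + C₂ := by linarith
  nlinarith

end

end Fermat.Agent.S14.H241
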